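import Mathlib

/-!
# S32-COND, leaf L8 (ROOF → ANN) (helper15), Mathlib-only

From helper7's ROOF (`S32.exists_roof`): `X := R²` with `G` acting through `ρR`, an injective
equivariant `ι : X →+ Mⁿ` and a surjective equivariant `π : X →+ N`, every integral combination
`u = Σ n_g [g] ∈ ℤ[G]` killing `M` kills `N`.

* `ann_of_roof` : pointwise form (= the `hann` shape of helper11's `S32M.isFlatAt_of_ann` /
  `exists_subquotient_of_ann'`);
* `ann_of_roof_end` : the same in `Module.End` form;
* `ann_of_roof_aux` : the abstract form (any additive group `X` with maps `aX g`, any index type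
  for the power of `M`, actions given as plain families of additive maps).
-/

set_option autoImplicit false

namespace Fermat.Agent.FF2.S32R

open Matrix

section Pointwise

variable {G M N X : Type*} [AddCommGroup M] [AddCommGroup N] [AddCommGroup X]

/-- **Abstract roof ⇒ annihilator**: `X` with maps `aX g : X → X`, `ι : X →+ (κ → M)` injective,
`π : X →+ N` surjective, both compatible with additive maps `aM g`, `aN g`. -/
theorem ann_of_roof_aux {κ : Type*} (aM : G → M →+ M) (aN : G → N →+ N) (aX : G → X → X)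
    (ι : X →+ (κ → M)) (π : X →+ N)
    (hι : Function.Injective ι) (hπ : Function.Surjective π)
    (hιeq : ∀ g w i, ι (aX g w) i = aM g (ι w i))
    (hπeq : ∀ g w, π (aX g w) = aN g (π w))
    (u : G →₀ ℤ) (hu : ∀ x : M, u.sum (fun g n => n • aM g x) = 0) (y : N) :
    u.sum (fun g n => n • aN g y) = 0 := by
  obtain ⟨w, rfl⟩ := hπ y
  have hv : u.sum (fun g n => n • aX g w) = 0 := by
    apply hι
    rw [map_zero]
    funext i
    rw [Finsupp.sum, map_sum, Finset.sum_apply, Pi.zero_apply]
    rw [← hu (ι w i), Finsupp.sum]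
    refine Finset.sum_congr rfl fun g _ => ?_
    rw [map_zsmul, Pi.smul_apply, hιeq]
  have h2 := congrArg π hv
  rw [map_zero, Finsupp.sum, map_sum] at h2
  rw [Finsupp.sum, ← h2]
  refine Finset.sum_congr rfl fun g _ => ?_
  rw [map_zsmul, hπeq]

end Pointwise

section Roof

variable {R A G M N : Type*} [CommRing R] [CommRing A] [Monoid G]
  [AddCommGroup M] [Module R M] [AddCommGroup N] [Module A N]

/-- **L8 (ROOF → ANN), pointwise form**: with the output of helper7's `exists_roof`, an element of
`ℤ[G]` killing `M` (through `αM`) kills `N` (through `αN`). -/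
theorem ann_of_roof (αM : G →* Module.End R M) (αN : G →* Module.End A N)
    {n : ℕ} (ρR : G →* Matrix (Fin 2) (Fin 2) R)
    (ι : (Fin 2 → R) →+ (Fin n → M)) (π : (Fin 2 → R) →+ N)
    (hι : Function.Injective ι) (hπ : Function.Surjective π)
    (hιeq : ∀ g w i, ι (ρR g *ᵥ w) i = αM g (ι w i))
    (hπeq : ∀ g w, π (ρR g *ᵥ w) = αN g (π w))
    (u : G →₀ ℤ) (hu : ∀ x : M, u.sum (fun g n => n • αM g x) = 0) (y : N) :
    u.sum (fun g n => n • αN g y) = 0 :=
  ann_of_roof_aux (fun g => (αM g).toAddMonoidHom) (fun g => (αN g).toAddMonoidHom)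
    (fun g w => ρR g *ᵥ w) ι π hι hπ hιeq hπeq u hu y

/-- Evaluation of an integral combination of endomorphisms. -/
theorem sum_zsmul_end_apply {S P : Type*} [CommRing S] [AddCommGroup P] [Module S P]
    (α : G →* Module.End S P) (u : G →₀ ℤ) (x : P) :
    (u.sum fun g n => n • α g) x = u.sum fun g n => n • α g x := by
  rw [Finsupp.sum, Finsupp.sum, LinearMap.sum_apply]
  rfl

/-- **L8 (ROOF → ANN), `Module.End` form.** -/
theorem ann_of_roof_end (αM : G →* Module.End R M) (αN : G →* Module.End A N)
    {n : ℕ} (ρR : G →* Matrix (Fin 2) (Fin 2) R)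
    (ι : (Fin 2 → R) →+ (Fin n → M)) (π : (Fin 2 → R) →+ N)
    (hι : Function.Injective ι) (hπ : Function.Surjective π)
    (hιeq : ∀ g w i, ι (ρR g *ᵥ w) i = αM g (ι w i))
    (hπeq : ∀ g w, π (ρR g *ᵥ w) = αN g (π w))
    (u : G →₀ ℤ) (hu : (u.sum fun g n => n • αM g) = 0) :
    (u.sum fun g n => n • αN g) = 0 := by
  apply LinearMap.ext
  intro y
  rw [sum_zsmul_end_apply, LinearMap.zero_apply]
  refine ann_of_roof αM αN ρR ι π hι hπ hιeq hπeq u (fun x => ?_) y
  rw [← sum_zsmul_end_apply, hu, LinearMap.zero_apply]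

end Roof

end Fermat.Agent.FF2.S32R
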